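/-
P-MW, row MW-A1-TKALG (helper44): the value of a function at a place of degree one, as a
`K`-linear evaluation map on Riemann-Roch spaces.  Prelude + `H23.PlaceBasic` + `H44.FF.TaylorBasic`.
-/
import Fermat.Agent.H44.FF.TaylorBasic

set_option autoImplicit false
set_option linter.style.haveILetI false

noncomputable section

open AlgebraicCurve WithZero

namespace Fermat.Agent.H44.MWDiv

open Fermat.Agent.H44.FF

variable {K F : Type*} [Field K] [Field F] [Algebra K F]

/-- The value of `f` at the place `v` (junk value `0` if there is none). -/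
def valAt (v : Place K F) (f : F) : K :=
  open Classical in
  if h : ∃ c : K, v.adicValuation (f - algebraMap K F c) < 1 then Classical.choose h else 0

theorem valAt_eq (v : Place K F) {f : F} {c : K}
    (h : v.adicValuation (f - algebraMap K F c) < 1) : valAt v f = c := by
  have hex : ∃ c : K, v.adicValuation (f - algebraMap K F c) < 1 := ⟨c, h⟩
  unfold valAt
  rw [dif_pos hex]
  exact tay_value_unique v (Classical.choose_spec hex) h

theorem valAt_spec (v : Place K F) (hdeg : v.deg = 1) {f : F} (hf : v.adicValuation f ≤ 1) :
    v.adicValuation (f - algebraMap K F (valAt v f)) < 1 := by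
  obtain ⟨c, hc⟩ := tay_exists_value v hdeg ((tay_nopole_iff v).mpr hf)
  rw [valAt_eq v hc]
  exact hc

theorem valAt_add (v : Place K F) (hdeg : v.deg = 1) {f f' : F}
    (hf : v.adicValuation f ≤ 1) (hf' : v.adicValuation f' ≤ 1) :
    valAt v (f + f') = valAt v f + valAt v f' := by
  apply valAt_eq
  have e : f + f' - algebraMap K F (valAt v f + valAt v f') =
      (f - algebraMap K F (valAt v f)) + (f' - algebraMap K F (valAt v f')) := by
    rw [map_add]; ring
  rw [e]
  exact lt_of_le_of_lt (Valuation.map_add _ _ _)
    (max_lt (valAt_spec v hdeg hf) (valAt_spec v hdeg hf'))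

theorem valAt_smul (v : Place K F) (hdeg : v.deg = 1) (a : K) {f : F}
    (hf : v.adicValuation f ≤ 1) :
    valAt v (a • f) = a * valAt v f := by
  apply valAt_eq
  have e : a • f - algebraMap K F (a * valAt v f) =
      algebraMap K F a * (f - algebraMap K F (valAt v f)) := by
    rw [Algebra.smul_def, map_mul]; ring
  rw [e, map_mul]
  calc v.adicValuation (algebraMap K F a) * v.adicValuation (f - algebraMap K F (valAt v f))
      ≤ 1 * v.adicValuation (f - algebraMap K F (valAt v f)) :=
        mul_le_mul_left (tay_adic_const_le v a) _
    _ < 1 := by rw [one_mul]; exact valAt_spec v hdeg hf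

/-- the value vanishes iff the function lies in the maximal ideal -/
theorem valAt_eq_zero_iff (v : Place K F) (hdeg : v.deg = 1) {f : F}
    (hf : v.adicValuation f ≤ 1) : valAt v f = 0 ↔ v.adicValuation f < 1 := by
  constructor
  · intro h
    have := valAt_spec v hdeg hf
    rwa [h, map_zero, sub_zero] at this
  · intro h
    apply valAt_eq
    rwa [map_zero, sub_zero]

end Fermat.Agent.H44.MWDiv
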