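/-
P-MW, row MW-A1-TKALG (helper44): existence of differentials of the third kind `G dy / y`
with prescribed residues (`ThirdKindAlgStatement`), by the dimension count
Riemann + `GapBoundStatement` + `AlgResidueStatement` + `CanonicalDegreeStatement`.
-/
import Fermat.Agent.H84.MWDiv.Interfaces
import Fermat.Agent.H19.RH.RamIdx
import Fermat.Agent.H58.RR.NonSpecial
import Fermat.Agent.H44.MWDiv.ValAt

set_option autoImplicit false
set_option linter.style.haveILetI false
set_option linter.unusedSectionVars false

noncomputable section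

open AlgebraicCurve WithZero

namespace Fermat.Agent.H44.MWDiv

open Fermat.Agent.H84.MWDiv Fermat.Agent.H27.ESD Fermat.Agent.H44.FF Fermat.Agent.H58

section General

variable {K F : Type*} [Field K] [Field F] [Algebra K F]

theorem hasValueAt_iff {v : Place K F} {G : F} {c : K} :
    HasValueAt v G c ↔ v.adicValuation (G - algebraMap K F c) < 1 := by
  unfold HasValueAt
  rw [Fermat.Agent.H23.adicValuation_lt_one_iff, sub_eq_zero]

theorem rrSum_apply_of_mem {T : Finset (Place K F)} {v : Place K F} (hv : v ∈ T) :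
    rrSum T v = 1 := by
  classical
  rw [rrSum, Finsupp.finsetSum_apply, Finset.sum_eq_single v]
  · rw [Finsupp.single_apply, if_pos rfl]
  · intro w _ hwv
    rw [Finsupp.single_apply, if_neg hwv]
  · intro h
    exact absurd hv h

/-- The evaluation map `L(W') → K^S` for a divisor `W'` vanishing on `S`. -/
def evMap (hdeg : ∀ v : Place K F, v.deg = 1) (S : Finset (Place K F)) (W' : Divisor K F)
    (hW' : ∀ v ∈ S, W' v = 0) : riemannRochSpace W' →ₗ[K] (↥S → K) where
  toFun f := fun v => valAt v.1 (f : F)
  map_add' f f' := by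
    funext v
    have h1 : v.1.adicValuation (f : F) ≤ 1 := by
      have := f.2 v.1
      rwa [hW' v.1 v.2, exp_zero] at this
    have h2 : v.1.adicValuation (f' : F) ≤ 1 := by
      have := f'.2 v.1
      rwa [hW' v.1 v.2, exp_zero] at this
    exact valAt_add v.1 (hdeg v.1) h1 h2
  map_smul' a f := by
    funext v
    have h1 : v.1.adicValuation (f : F) ≤ 1 := by
      have := f.2 v.1
      rwa [hW' v.1 v.2, exp_zero] at this
    exact valAt_smul v.1 (hdeg v.1) a h1

theorem evMap_apply (hdeg : ∀ v : Place K F, v.deg = 1) (S : Finset (Place K F))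
    (W' : Divisor K F) (hW' : ∀ v ∈ S, W' v = 0) (f : riemannRochSpace W') (v : ↥S) :
    evMap hdeg S W' hW' f v = valAt v.1 (f : F) := rfl

end General

/-- **[A1-TKALG]** existence of differentials of the third kind with prescribed residues. -/
theorem thirdKindAlg (hART : AlgResidueStatement) (hCD : CanonicalDegreeStatement)
    (hGap : GapBoundStatement) : ThirdKindAlgStatement := by
  classical
  intro K F _ _ _ _ _ g hR y hy hfin D hD0 hDS
  have hdeg := hR.deg_one
  have hy0 : y ≠ 0 := by
    rintro rfl
    exact hy (isAlgebraic_zero)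
  -- the support of `y`
  obtain ⟨Dy, hDy, -⟩ := hR.principal.exists_divisor y hy0
  set S : Finset (Place K F) := Dy.support with hS
  have hmemS : ∀ v : Place K F, v ∈ S ↔ v.ord y ≠ 0 := by
    intro v
    rw [hS, Finsupp.mem_support_iff, hDy]
  have hram : ∀ v : Place K F, 1 ≤ (ramIdx y v : ℤ) := by
    intro v
    have := Fermat.Agent.H19.rh_ramIdx_pos v (hdeg v) hy
    omega
  -- the trivial case
  by_cases hSe : S = ∅
  · refine ⟨0, ?_, ?_⟩
    · intro v hv
      exact absurd ((hmemS v).mpr hv) (by rw [hSe]; exact Finset.notMem_empty v)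
    · intro v _
      rw [Place.ord_zero]
      have := hram v
      omega
  obtain ⟨v₀, hv₀⟩ := Finset.nonempty_iff_ne_empty.mpr hSe
  obtain ⟨W, hW1, hW2, hWdeg⟩ := hCD K F g hR y hy hfin
  set W' : Divisor K F := W + rrSum S with hW'def
  have hW'S : ∀ v ∈ S, W' v = 0 := by
    intro v hv
    rw [hW'def, Finsupp.add_apply, hW1 v ((hmemS v).mp hv), rrSum_apply_of_mem hv]
    norm_num
  have hW'nS : ∀ v, v ∉ S → W' v = W v := by
    intro v hv
    rw [hW'def, Finsupp.add_apply, rrSum_apply_of_notMem hv, add_zero]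
  have hord0 : ∀ v, v ∉ S → v.ord y = 0 := by
    intro v hv
    by_contra h
    exact hv ((hmemS v).mpr h)
  have hW'deg : Divisor.degree W' = 2 * (g : ℤ) - 2 + S.card := by
    rw [hW'def, map_add, hWdeg, rr_degree_rrSum hdeg]
  haveI : Module.Finite K (riemannRochSpace W') := hR.finite W'
  haveI : Module.Finite K (riemannRochSpace W) := hR.finite W
  have hriem := hR.riemann W'
  rw [hW'deg] at hriem
  set ev := evMap hdeg S W' hW'S with hev
  have hint : ∀ (f : riemannRochSpace W') (v : Place K F), v ∈ S →
      v.adicValuation (f : F) ≤ 1 := by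
    intro f v hv
    have := f.2 v
    rwa [hW'S v hv, exp_zero] at this
  -- the kernel of the evaluation is `L(W)`
  have hker : Module.finrank K (LinearMap.ker ev) ≤ g := by
    have hle : (LinearMap.ker ev).map (riemannRochSpace W').subtype ≤ riemannRochSpace W := by
      rintro _ ⟨f, hf, rfl⟩
      intro v
      show v.adicValuation (f : F) ≤ exp (W v)
      by_cases hv : v ∈ S
      · have h1 : valAt v (f : F) = 0 := by
          have := congrFun (LinearMap.mem_ker.mp hf) ⟨v, hv⟩
          exact this
        have h2 := (valAt_eq_zero_iff v (hdeg v) (hint f v hv)).mp h1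
        rw [hW1 v ((hmemS v).mp hv), Place.adicValuation_le_exp_iff]
        rcases (Fermat.Agent.H23.adicValuation_lt_one_iff v).mp h2 with h | h
        · exact Or.inl h
        · exact Or.inr (by omega)
      · rw [← hW'nS v hv]
        exact f.2 v
    calc Module.finrank K (LinearMap.ker ev)
        = Module.finrank K ((LinearMap.ker ev).map (riemannRochSpace W').subtype) :=
          (Submodule.finrank_map_subtype_eq _ _).symm
      _ ≤ Module.finrank K (riemannRochSpace W) := Submodule.finrank_mono hle
      _ ≤ g := hGap K F g hR y hy hfin W hW1 hW2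
  have hrn := LinearMap.finrank_range_add_finrank_ker ev
  -- the hyperplane
  let φ : (↥S → K) →ₗ[K] K :=
    ∑ v : ↥S, ((v.1.ord y : ℤ) : K) • LinearMap.proj v
  have hφ : ∀ c : ↥S → K, φ c = ∑ v : ↥S, ((v.1.ord y : ℤ) : K) * c v := by
    intro c
    simp [φ]
  -- `range ev` lies in the hyperplane (algebraic residue theorem)
  have hoff : ∀ (f : riemannRochSpace W') (v : Place K F), v.ord y = 0 →
      -((ramIdx y v : ℤ) - 1) ≤ v.ord (f : F) := by
    intro f v hv
    have hvS : v ∉ S := fun h => (hmemS v).mp h hv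
    have := f.2 v
    rw [hW'nS v hvS, hW2 v hv, Place.adicValuation_le_exp_iff] at this
    rcases this with h | h
    · rw [h, Place.ord_zero]
      have := hram v
      omega
    · exact h
  have hon : ∀ (f : riemannRochSpace W') (v : Place K F), v.ord y ≠ 0 →
      0 ≤ v.ord (f : F) ∧ HasValueAt v (f : F) (valAt v (f : F)) := by
    intro f v hv
    have hvS := (hmemS v).mpr hv
    exact ⟨(tay_nopole_iff v).mpr (hint f v hvS),
      hasValueAt_iff.mpr (valAt_spec v (hdeg v) (hint f v hvS))⟩
  have hrange : LinearMap.range ev ≤ LinearMap.ker φ := by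
    rintro _ ⟨f, rfl⟩
    rw [LinearMap.mem_ker, hφ]
    have hart := hART K F g hR y hy hfin (f : F) (fun v => valAt v (f : F)) (hon f) (hoff f)
    have hset : {v : Place K F | v.ord y ≠ 0} = (S : Set (Place K F)) := by
      ext v
      simp [hmemS]
    rw [hset, finsum_mem_coe_finset] at hart
    rw [← hart, ← Finset.sum_coe_sort S (fun v => ((v.ord y : ℤ) : K) * valAt v (f : F))]
    rfl
  -- dimension of the hyperplane
  have hφker : Module.finrank K (LinearMap.ker φ) + 1 ≤ S.card := by
    have hne : LinearMap.ker φ ≠ ⊤ := by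
      intro h
      have hmem : (Pi.single (⟨v₀, hv₀⟩ : ↥S) (1 : K) : ↥S → K) ∈ LinearMap.ker φ :=
        h ▸ Submodule.mem_top
      rw [LinearMap.mem_ker, hφ, Finset.sum_eq_single (⟨v₀, hv₀⟩ : ↥S)] at hmem
      · rw [Pi.single_eq_same, mul_one] at hmem
        exact (hmemS v₀).mp hv₀ (by exact_mod_cast hmem)
      · intro w _ hw
        rw [Pi.single_eq_of_ne hw, mul_zero]
      · intro h
        exact absurd (Finset.mem_univ _) h
    have h1 := Submodule.finrank_lt hne
    rw [Module.finrank_fintype_fun_eq_card, Fintype.card_coe] at h1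
    omega
  have heq : LinearMap.range ev = LinearMap.ker φ :=
    Submodule.eq_of_le_of_finrank_le hrange (by omega)
  -- the target vector
  let c₀ : ↥S → K := fun v => ((D v.1 : ℤ) : K) / ((v.1.ord y : ℤ) : K)
  have hc₀ : c₀ ∈ LinearMap.ker φ := by
    rw [LinearMap.mem_ker, hφ]
    have h1 : ∀ v : ↥S, ((v.1.ord y : ℤ) : K) * c₀ v = ((D v.1 : ℤ) : K) := by
      intro v
      have h2 : ((v.1.ord y : ℤ) : K) ≠ 0 := by
        exact_mod_cast (hmemS v.1).mp v.2
      show ((v.1.ord y : ℤ) : K) * (((D v.1 : ℤ) : K) / ((v.1.ord y : ℤ) : K)) = _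
      field_simp
    rw [Finset.sum_congr rfl (fun v _ => h1 v),
      Finset.sum_coe_sort S (fun v => ((D v : ℤ) : K)), ← Int.cast_sum]
    have h3 : ∑ v ∈ S, D v = Divisor.degree D := by
      rw [rr_degree_eq_sum_of_deg_one hdeg, Finsupp.sum]
      symm
      apply Finset.sum_subset
      · intro v hv
        rw [hmemS]
        intro h0
        exact (Finsupp.mem_support_iff.mp hv) (hDS v h0)
      · intro v _ hv
        exact Finsupp.notMem_support_iff.mp hv
    rw [h3, hD0, Int.cast_zero]
  rw [← heq] at hc₀
  obtain ⟨f, hf⟩ := hc₀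
  refine ⟨(f : F), ?_, fun v hv => hoff f v hv⟩
  intro v hv
  have hvS := (hmemS v).mpr hv
  refine ⟨(hon f v hv).1, ?_⟩
  have h1 : valAt v (f : F) = ((D v : ℤ) : K) / ((v.ord y : ℤ) : K) :=
    congrFun hf ⟨v, hvS⟩
  rw [← h1]
  exact (hon f v hv).2

end Fermat.Agent.H44.MWDiv
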